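import Mathlib
import Fermat.Agent.S55.B.Res

/-!
# S56 / FLAT / FL : the lattice lemma (LAT), (LATb)      (helper24)   Briefing `S56-FLAT`, part FL.
Abstract: `Ω / K` any fields, `v : RVal Ω`, `J` any subgroup of `Gal(Ω/K)`.
-/

set_option autoImplicit false

namespace Fermat.Agent.S56.Flat

open Fermat.Agent.S05 Fermat.Agent.S55.B

variable {K Ω : Type*} [Field K] [Field Ω] [Algebra K Ω]

/-- the family `g` is `J`-equivariant for SOME permutation action of `J` on `X` -/
def Eqv {ι X : Type*} (J : Subgroup (Ω ≃ₐ[K] Ω)) (g : ι → X → Ω) : Prop :=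
  ∀ σ ∈ J, ∃ a : X → X, Function.Surjective a ∧ ∀ i x, σ (g i x) = g i (a x)

/-- Galois descent of linear independence -/
theorem lat_indep {ι X : Type*} (J : Subgroup (Ω ≃ₐ[K] Ω)) (g : ι → X → Ω) (heq : Eqv J g)
    (s : Finset ι)
    (h : ∀ c : ι → Ω, (∀ i, c i ∈ Fx J) → ∑ i ∈ s, c i • g i = 0 → ∀ i ∈ s, c i = 0) :
    ∀ c : ι → Ω, ∑ i ∈ s, c i • g i = 0 → ∀ i ∈ s, c i = 0 := by
  classical
  have hconj : ∀ (t : Finset ι) (c : ι → Ω), ∑ i ∈ t, c i • g i = 0 → ∀ σ ∈ J,
      ∑ i ∈ t, (σ (c i)) • g i = 0 := by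
    intro t c hc σ hσ
    obtain ⟨a, ha, hga⟩ := heq σ hσ
    funext b
    obtain ⟨b', rfl⟩ := ha b
    have h1 := congrFun hc b'
    simp only [Finset.sum_apply, Pi.smul_apply, smul_eq_mul, Pi.zero_apply] at h1 ⊢
    have h2 := congrArg σ h1
    rw [map_sum, map_zero] at h2
    rw [← h2]
    refine Finset.sum_congr rfl fun i _ => ?_
    rw [map_mul, hga]
  -- induction on subsets of `s`
  have key : ∀ t : Finset ι, t ⊆ s → ∀ c : ι → Ω, ∑ i ∈ t, c i • g i = 0 → ∀ i ∈ t, c i = 0 := by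
    intro t
    induction t using Finset.induction_on with
    | empty => intro _ c _ i hi; exact absurd hi (Finset.notMem_empty i)
    | insert a t hat ih =>
      intro hts c hc
      have hts' : t ⊆ s := (Finset.subset_insert a t).trans hts
      by_cases hca : c a = 0
      · have h1 : ∑ i ∈ t, c i • g i = 0 := by
          rw [Finset.sum_insert hat, hca, zero_smul, zero_add] at hc
          exact hc
        intro i hi
        rcases Finset.mem_insert.mp hi with rfl | hi
        · exact hca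
        · exact ih hts' c h1 i hi
      · exfalso
        set d : ι → Ω := fun i => if i ∈ insert a t then c i / c a else 0 with hd
        have hda : d a = 1 := by
          simp only [hd, Finset.mem_insert_self, if_true]
          exact div_self hca
        have hrel : ∑ i ∈ insert a t, d i • g i = 0 := by
          have : ∑ i ∈ insert a t, d i • g i = (c a)⁻¹ • ∑ i ∈ insert a t, c i • g i := by
            rw [Finset.smul_sum]
            refine Finset.sum_congr rfl fun i hi => ?_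
            rw [smul_smul]
            congr 1
            simp only [hd, if_pos hi]
            exact div_eq_inv_mul _ _
          rw [this, hc, smul_zero]
        have hfix : ∀ i ∈ t, ∀ σ ∈ J, σ (d i) = d i := by
          intro i hi σ hσ
          have h1 := hconj _ d hrel σ hσ
          rw [Finset.sum_insert hat, hda, map_one] at h1
          rw [Finset.sum_insert hat, hda] at hrel
          have h2 : ∑ i ∈ t, (σ (d i) - d i) • g i = 0 := by
            simp only [sub_smul, Finset.sum_sub_distrib]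
            have e1 : ∑ i ∈ t, σ (d i) • g i = - ((1 : Ω) • g a) := by
              rw [eq_neg_iff_add_eq_zero, add_comm]; exact h1
            have e2 : ∑ i ∈ t, d i • g i = - ((1 : Ω) • g a) := by
              rw [eq_neg_iff_add_eq_zero, add_comm]; exact hrel
            rw [e1, e2, sub_self]
          exact sub_eq_zero.mp (ih hts' _ h2 i hi)
        have hmem : ∀ i, d i ∈ Fx J := by
          intro i
          rw [mem_Fx]
          intro σ hσ
          by_cases hi : i ∈ insert a t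
          · rcases Finset.mem_insert.mp hi with rfl | hi
            · rw [hda, map_one]
            · exact hfix i hi σ hσ
          · simp only [hd, if_neg hi, map_zero]
        have hrel' : ∑ i ∈ s, d i • g i = 0 := by
          rw [← hrel]
          refine (Finset.sum_subset hts fun i _ hi => ?_).symm
          simp only [hd, if_neg hi, zero_smul]
        have h0 := h d hmem hrel' a (hts (Finset.mem_insert_self a t))
        rw [hda] at h0
        exact one_ne_zero h0
  exact key s (Finset.Subset.refl s)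

/-- a minimal generating subfamily of the `O_E`-span is `E`-independent -/
theorem lat_exists {ι X : Type*} [Fintype ι] (v : RVal Ω) (J : Subgroup (Ω ≃ₐ[K] Ω))
    (g : ι → X → Ω) :
    ∃ s : Finset ι,
      (∀ c : ι → Ω, (∀ i, c i ∈ Fx J) → ∑ i ∈ s, c i • g i = 0 → ∀ i ∈ s, c i = 0) ∧
      ∀ i, ∃ b : ι → Ω, (∀ j, b j ∈ Fx J ∧ v.GE (b j) 0) ∧ g i = ∑ j ∈ s, b j • g j := by
  classical
  -- the property `P s`
  let P : Finset ι → Prop := fun s =>
    ∀ i, ∃ b : ι → Ω, (∀ j, b j ∈ Fx J ∧ v.GE (b j) 0) ∧ g i = ∑ j ∈ s, b j • g j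
  have hPuniv : P Finset.univ := by
    intro i
    refine ⟨fun j => if j = i then 1 else 0, fun j => ?_, ?_⟩
    · by_cases hj : j = i
      · simp only [if_pos hj]
        exact ⟨one_mem _, RVal.EQ_one.GE le_rfl⟩
      · simp only [if_neg hj]
        exact ⟨zero_mem _, RVal.GE_zero 0⟩
    · simp
  -- minimal cardinality
  have hex : ∃ n : ℕ, ∃ s : Finset ι, s.card = n ∧ P s := ⟨_, Finset.univ, rfl, hPuniv⟩
  obtain ⟨s, hs, hPs⟩ := Nat.find_spec hex
  refine ⟨s, ?_, hPs⟩
  intro c hc hrel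
  by_contra hne
  push Not at hne
  obtain ⟨i1, hi1, hci1⟩ := hne
  -- the index of minimal valuation among the nonzero coefficients
  set s' := s.filter (fun i => c i ≠ 0) with hs'
  have hs'ne : s'.Nonempty := ⟨i1, Finset.mem_filter.2 ⟨hi1, hci1⟩⟩
  obtain ⟨j0, hj0, hmin⟩ := Finset.exists_min_image s' (fun i => v.w (c i)) hs'ne
  obtain ⟨hj0s, hcj0⟩ := Finset.mem_filter.1 hj0
  -- `g j0` is a combination of the others
  have hg0 : g j0 = ∑ j ∈ s.erase j0, (-(c j / c j0)) • g j := by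
    have h1 : ∑ j ∈ s.erase j0, c j • g j + c j0 • g j0 = 0 := by
      rw [Finset.sum_erase_add _ _ hj0s]; exact hrel
    have h2 : c j0 • g j0 = - ∑ j ∈ s.erase j0, c j • g j := by
      rw [eq_neg_iff_add_eq_zero, add_comm]; exact h1
    have h3 : g j0 = (c j0)⁻¹ • (c j0 • g j0) := by
      rw [smul_smul, inv_mul_cancel₀ hcj0, one_smul]
    rw [h3, h2, ← Finset.sum_neg_distrib, Finset.smul_sum]
    refine Finset.sum_congr rfl fun j _ => ?_
    rw [← neg_smul, smul_smul]
    congr 1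
    field_simp
  have hcoef : ∀ j ∈ s, -(c j / c j0) ∈ Fx J ∧ v.GE (-(c j / c j0)) 0 := by
    intro j hj
    refine ⟨neg_mem (div_mem (hc j) (hc j0)), RVal.GE.neg ?_⟩
    by_cases hcj : c j = 0
    · rw [hcj, zero_div]; exact RVal.GE_zero 0
    · right
      rw [RVal.w_div hcj hcj0]
      have := hmin j (Finset.mem_filter.2 ⟨hj, hcj⟩)
      linarith
  have hP' : P (s.erase j0) := by
    intro i
    obtain ⟨b, hb, hgi⟩ := hPs i
    refine ⟨fun j => if j ∈ s then b j + b j0 * (-(c j / c j0)) else 0, fun j => ?_, ?_⟩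
    · by_cases hj : j ∈ s
      · simp only [if_pos hj]
        refine ⟨add_mem (hb j).1 (mul_mem (hb j0).1 (hcoef j hj).1), ?_⟩
        have := ((hb j0).2.mul (hcoef j hj).2)
        rw [add_zero] at this
        exact (hb j).2.add this
      · simp only [if_neg hj]
        exact ⟨zero_mem _, RVal.GE_zero 0⟩
    · rw [hgi, ← Finset.sum_erase_add _ _ hj0s, hg0, Finset.smul_sum, ← Finset.sum_add_distrib]
      refine Finset.sum_congr rfl fun j hj => ?_
      show _ = (if j ∈ s then b j + b j0 * -(c j / c j0) else 0) • g j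
      rw [if_pos (Finset.mem_of_mem_erase hj), add_smul, smul_smul]
  have hlt : (s.erase j0).card < Nat.find hex := by
    rw [Finset.card_erase_of_mem hj0s, hs]
    have : 0 < s.card := Finset.card_pos.2 ⟨j0, hj0s⟩
    omega
  exact Nat.find_min hex hlt ⟨_, rfl, hP'⟩

/-- **LAT**, basis form -/
theorem lat0 {ι X : Type*} [Fintype ι] (v : RVal Ω) (J : Subgroup (Ω ≃ₐ[K] Ω))
    (g : ι → X → Ω) (heq : Eqv J g) :
    ∃ s : Finset ι,
      (∀ c : ι → Ω, ∑ i ∈ s, c i • g i = 0 → ∀ i ∈ s, c i = 0) ∧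
      ∀ i, ∃ b : ι → Ω, (∀ j, b j ∈ Fx J ∧ v.GE (b j) 0) ∧ g i = ∑ j ∈ s, b j • g j := by
  obtain ⟨s, h1, h2⟩ := lat_exists v J g
  exact ⟨s, lat_indep J g heq s h1, h2⟩

/-- **LAT** (briefing form; the bounds are given for `GE r` and for `GT r`) -/
theorem lat (v : RVal Ω) (J : Subgroup (Ω ≃ₐ[K] Ω)) {X : Type*} {m : ℕ}
    (s : (Ω ≃ₐ[K] Ω) → X → X) (y : Fin m → X → Ω)
    (hy : ∀ g ∈ J, ∀ j x, g (y j x) = y j (s g x)) (hs : ∀ g ∈ J, Function.Surjective (s g))
    (be : Fin m → Ω) (xi : (Ω ≃ₐ[K] Ω) → Ω) (f : X → Ω)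
    (hf : ∀ x, f x = ∑ j, be j * y j x) (hxi : ∀ g ∈ J, ∀ x, g (f x) = xi g * f (s g x)) :
    ∃ (T : Finset (Fin m)) (b : Fin m → Ω), (∀ x, f x = ∑ l ∈ T, b l * y l x) ∧
      (∀ r : ℝ, (∀ j, v.GE (be j) r) → ∀ l ∈ T, v.GE (b l) r) ∧
      (∀ r : ℝ, (∀ j, v.GT (be j) r) → ∀ l ∈ T, v.GT (b l) r) ∧
      (∀ g ∈ J, ∀ l ∈ T, g (b l) = xi g * b l) := by
  classical
  obtain ⟨T, hind, hgen⟩ := lat0 v J y (fun g hg => ⟨s g, hs g hg, hy g hg⟩)
  choose a ha hya using hgen
  refine ⟨T, fun l => ∑ j, be j * a j l, ?_, ?_, ?_, ?_⟩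
  · intro x
    rw [hf]
    have h1 : ∀ j, be j * y j x = ∑ l ∈ T, be j * a j l * y l x := by
      intro j
      rw [hya j]
      simp only [Finset.sum_apply, Pi.smul_apply, smul_eq_mul, Finset.mul_sum, mul_assoc]
    simp_rw [h1]
    rw [Finset.sum_comm]
    exact Finset.sum_congr rfl fun l _ => by rw [Finset.sum_mul]
  · intro r hr l _
    refine GE_sum v _ _ _ fun j _ => ?_
    have := (hr j).mul (ha j l).2
    rwa [add_zero] at this
  · intro r hr l _
    refine GT_sum v _ _ _ fun j _ => ?_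
    have := (hr j).mul_GE (ha j l).2
    rwa [add_zero] at this
  · intro g hg
    set b : Fin m → Ω := fun l => ∑ j, be j * a j l with hb
    have hfb : ∀ x, f x = ∑ l ∈ T, b l * y l x := by
      intro x
      rw [hf]
      have h1 : ∀ j, be j * y j x = ∑ l ∈ T, be j * a j l * y l x := by
        intro j
        rw [hya j]
        simp only [Finset.sum_apply, Pi.smul_apply, smul_eq_mul, Finset.mul_sum, mul_assoc]
      simp_rw [h1]
      rw [Finset.sum_comm]
      exact Finset.sum_congr rfl fun l _ => by rw [hb, Finset.sum_mul]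
    have hrel : ∑ l ∈ T, (g (b l) - xi g * b l) • y l = 0 := by
      funext x'
      obtain ⟨x, rfl⟩ := hs g hg x'
      have h1 := hxi g hg x
      rw [hfb x, hfb (s g x), map_sum, Finset.mul_sum] at h1
      simp only [Finset.sum_apply, Pi.smul_apply, smul_eq_mul, Pi.zero_apply, sub_mul,
        Finset.sum_sub_distrib]
      rw [sub_eq_zero]
      calc ∑ l ∈ T, g (b l) * y l (s g x) = ∑ l ∈ T, g (b l * y l x) :=
            Finset.sum_congr rfl fun l _ => by rw [map_mul, hy g hg]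
        _ = ∑ l ∈ T, xi g * (b l * y l (s g x)) := h1
        _ = _ := Finset.sum_congr rfl fun l _ => by rw [mul_assoc]
    intro l hl
    exact sub_eq_zero.1 (hind _ hrel l hl)

/-- **LATb** -/
theorem latb (v : RVal Ω) (J : Subgroup (Ω ≃ₐ[K] Ω)) {X : Type*} {m : ℕ}
    (s : (Ω ≃ₐ[K] Ω) → X → X) (y : Fin m → X → Ω)
    (hy : ∀ g ∈ J, ∀ j x, g (y j x) = y j (s g x)) (hs : ∀ g ∈ J, Function.Surjective (s g))
    (hyint : ∀ j x, v.GE (y j x) 0)
    (be : Fin m → Ω) (hbe : ∀ j, v.GE (be j) 0) (xi : (Ω ≃ₐ[K] Ω) → Ω) (f : X → Ω)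
    (hf : ∀ x, f x = ∑ j, be j * y j x) (hxi : ∀ g ∈ J, ∀ x, g (f x) = xi g * f (s g x))
    (x0 : X) (hx0 : v.EQ (f x0) 0) :
    ∃ c : Ω, v.EQ c 0 ∧ ∀ g ∈ J, g c = xi g * c := by
  obtain ⟨T, b, h1, h2, -, h4⟩ := lat v J s y hy hs be xi f hf hxi
  by_contra hcon
  push Not at hcon
  have hb : ∀ l ∈ T, v.GT (b l) 0 := by
    intro l hl
    rw [GT_iff_not_EQ v (h2 0 hbe l hl)]
    intro hEQ
    obtain ⟨g, hg, hne⟩ := hcon (b l) hEQ
    exact hne (h4 g hg l hl)
  have : v.GT (f x0) 0 := by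
    rw [h1]
    refine GT_sum v _ _ _ fun l hl => ?_
    have := (hb l hl).mul_GE (hyint l x0)
    rwa [add_zero] at this
  exact (GT_iff_not_EQ v (this.GE le_rfl)).1 this hx0

end Fermat.Agent.S56.Flat
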