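import Fermat.Agent.S56.Flat.Defs
import Fermat.Agent.S56.Flat.FL.Lat
import Fermat.Agent.S33.Val.Cyc
import Fermat.Agent.S55.E.Chi

/-!
# S56 / FLAT / FL : (LATa), (L0), (V0), duality      (helper24)   Briefing `S56-FLAT`, part FL.
-/

set_option autoImplicit false

noncomputable section

namespace Fermat.Agent.S56.Flat

open Fermat.Agent.S55 Fermat.Agent.S55.B Fermat.Agent.S05 ExtCitation

variable {p : ℕ} [Fact p.Prime]

theorem RInt.fixed {z : Qb} (h : RInt p z) (σ : GQ) : σ z = z := by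
  obtain ⟨r, -, rfl⟩ := h
  exact σ.commutes r

theorem one_div_pos' : (0 : ℝ) < 1 / ((p : ℝ) - 1) := by
  have : (1 : ℝ) < p := by exact_mod_cast (Fact.out : p.Prime).one_lt
  apply div_pos one_pos
  linarith

theorem one_div_lt_one (hp2 : p ≠ 2) : 1 / ((p : ℝ) - 1) < 1 := by
  have h2 := (Fact.out : p.Prime).two_le
  have h3 : 3 ≤ p := by omega
  have : (3 : ℝ) ≤ p := by exact_mod_cast h3
  rw [div_lt_one (by linarith)]
  linarith

/-- `v(ζ^a - 1) = 1/(p-1)` for `a ≠ 0` -/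
theorem EQ_zeta_pow {ζ : Qb} (hζ : IsPrimitiveRoot ζ p) {a : ZMod p} (ha : a ≠ 0) :
    (vp p).EQ (ζ ^ a.val - 1) (1 / ((p : ℝ) - 1)) := by
  have hcop : Nat.Coprime a.val p := by
    rw [Nat.coprime_comm, (Fact.out : p.Prime).coprime_iff_not_dvd]
    intro hdvd
    apply ha
    rw [← ZMod.natCast_zmod_val a, (ZMod.natCast_eq_zero_iff _ _).2 hdvd]
  exact Fermat.Agent.S33.w_pi (pPrime p) (hζ.pow_of_coprime _ hcop)

theorem eq_zero_of_GT_zeta {ζ : Qb} (hζ : IsPrimitiveRoot ζ p) {a : ZMod p}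
    (h : (vp p).GT (ζ ^ a.val - 1) (1 / ((p : ℝ) - 1))) : a = 0 := by
  by_contra ha
  have h1 := EQ_zeta_pow hζ ha
  have h2 := h.lt_w h1.1
  rw [h1.2] at h2
  exact lt_irrefl _ h2

theorem EQ_zeta_pow_zero {ζ : Qb} (hζ : IsPrimitiveRoot ζ p) (n : ℕ) : (vp p).EQ (ζ ^ n) 0 := by
  have h0 : ζ ≠ 0 := hζ.ne_zero (Fact.out : p.Prime).ne_zero
  refine ⟨pow_ne_zero _ h0, ?_⟩
  have h1 : (vp p).w (ζ ^ p) = p * (vp p).w ζ := RVal.w_pow h0 p
  rw [hζ.pow_eq_one, RVal.w_one] at h1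
  have hp : (p : ℝ) ≠ 0 := by exact_mod_cast (Fact.out : p.Prime).ne_zero
  have h2 : (vp p).w ζ = 0 := by
    rcases mul_eq_zero.1 h1.symm with h | h
    · exact absurd h hp
    · exact h
  rw [RVal.w_pow h0, h2, mul_zero]

/-- `ζ ^ (a + b).val = ζ ^ a.val * ζ ^ b.val` -/
theorem zeta_pow_add {ζ : Qb} (hζ : IsPrimitiveRoot ζ p) (a b : ZMod p) :
    ζ ^ (a + b).val = ζ ^ a.val * ζ ^ b.val := by
  rw [← pow_add, ZMod.val_add, ← pow_mod_orderOf ζ (a.val + b.val), ← hζ.eq_orderOf]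

theorem zeta_pow_mul {ζ : Qb} (hζ : IsPrimitiveRoot ζ p) (a b : ZMod p) :
    ζ ^ (a * b).val = (ζ ^ b.val) ^ a.val := by
  rw [← pow_mul, ZMod.val_mul, ← pow_mod_orderOf ζ (b.val * a.val), ← hζ.eq_orderOf, mul_comm]

theorem zeta_pow_inj {ζ : Qb} (hζ : IsPrimitiveRoot ζ p) {a b : ZMod p}
    (h : ζ ^ a.val = ζ ^ b.val) : a = b :=
  ZMod.val_injective p (hζ.pow_inj (ZMod.val_lt a) (ZMod.val_lt b) h)

theorem gal_zeta_pow {ζ : Qb} (hζ : IsPrimitiveRoot ζ p) (σ : GQ) (a : ZMod p) :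
    σ (ζ ^ a.val) = ζ ^ (((cycloChar p σ : (ZMod p)ˣ) : ZMod p) * a).val := by
  rw [zeta_pow_mul hζ]
  exact E.cycloChar_spec p σ (by rw [← pow_mul, mul_comm, pow_mul, hζ.pow_eq_one, one_pow])

/-! ### duality in `𝔽_p`-vector spaces -/

theorem exists_form_aux {V : Type} [AddCommGroup V] [Module (ZMod p) V] (W : AddSubgroup V)
    {g : V} (hg : g ∉ W) : ∃ ℓ : V →+ ZMod p, (∀ w ∈ W, ℓ w = 0) ∧ ℓ g ≠ 0 := by
  have hg' : g ∉ AddSubgroup.toZModSubmodule p W := hg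
  obtain ⟨f, hf, hf'⟩ := Submodule.exists_dual_map_eq_bot_of_notMem hg' inferInstance
  refine ⟨f.toAddMonoidHom, fun w hw => ?_, hf⟩
  have : f w ∈ (AddSubgroup.toZModSubmodule p W).map f := Submodule.mem_map_of_mem hw
  rw [hf'] at this
  exact (Submodule.mem_bot _).1 this

theorem exists_form {V : Type} [AddCommGroup V] (hpV : ∀ t : V, p • t = 0) (W : AddSubgroup V)
    {g : V} (hg : g ∉ W) : ∃ ℓ : V →+ ZMod p, (∀ w ∈ W, ℓ w = 0) ∧ ℓ g ≠ 0 :=
  @exists_form_aux p _ V _ (AddCommGroup.zmodModule hpV) W g hg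

/-! ### (LATa) -/

/-- **LATa** -/
theorem lata {X : Type*} {m : ℕ} (s : GQ → X → X) (y : Fin m → X → Qb)
    (hy : ∀ g ∈ Ip p, ∀ j x, g (y j x) = y j (s g x))
    (hs : ∀ g ∈ Ip p, Function.Surjective (s g)) (hyint : ∀ j x, (vp p).GE (y j x) 0)
    (be : Fin m → Qb) (hbe : ∀ j, (vp p).GT (be j) 0) (f : X → Qb)
    (hf : ∀ x, f x = ∑ j, be j * y j x) (hxi : ∀ g ∈ Ip p, ∀ x, g (f x) = f (s g x)) (x : X) :
    (vp p).GE (f x) 1 := by
  obtain ⟨T, b, h1, -, h3, h4⟩ := lat (vp p) (Ip p) s y hy hs be (fun _ => 1) f hf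
    (fun g hg x => by rw [one_mul]; exact hxi g hg x)
  rw [h1]
  refine GE_sum _ _ _ _ fun l hl => ?_
  have hb : (vp p).GE (b l) 1 := by
    by_cases hb0 : b l = 0
    · exact Or.inl hb0
    obtain ⟨k, hk⟩ := Fermat.Agent.S33.w_int_of_fixed (pPrime p) (a := b l)
      (fun σ hσ => by rw [h4 σ hσ l hl, one_mul]) hb0
    have hpos := (h3 0 hbe l hl).lt_w hb0
    right
    rw [hk] at hpos ⊢
    have : (0 : ℤ) < k := by exact_mod_cast hpos
    exact_mod_cast this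
  have := hb.mul (hyint l x)
  rwa [add_zero] at this

/-! ### integrality of rational `p`-integral numbers -/

theorem EQ_natCast_of_coprime {n : ℕ} (h : n.Coprime p) : (vp p).EQ ((n : ℕ) : Qb) 0 := by
  have hGE : (vp p).GE ((n : ℕ) : Qb) 0 := RVal.GE_natCast n
  by_contra hne
  have hGT : (vp p).GT ((n : ℕ) : Qb) 0 := (GT_iff_not_EQ _ hGE).2 hne
  have hpGT : (vp p).GT ((p : ℕ) : Qb) 0 := Or.inr (by
    have := wq_q (pPrime p)
    rw [show (((pPrime p : Nat.Primes) : ℕ) : Qb) = ((p : ℕ) : Qb) from rfl] at this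
    rw [this]; exact one_pos)
  have hb : IsCoprime (n : ℤ) (p : ℤ) := Nat.isCoprime_iff_coprime.2 h
  obtain ⟨a, b, hab⟩ := hb
  have h1 : ((a : ℤ) : Qb) * ((n : ℕ) : Qb) + ((b : ℤ) : Qb) * ((p : ℕ) : Qb) = 1 := by
    have := congrArg (fun z : ℤ => (z : Qb)) hab
    push_cast at this
    exact this
  have h2 : (vp p).GT (1 : Qb) 0 := by
    rw [← h1]
    refine RVal.GT.add ?_ ?_
    · simpa using (RVal.GE_intCast (v := vp p) a).mul_GT hGT
    · simpa using (RVal.GE_intCast (v := vp p) b).mul_GT hpGT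
  exact (GT_iff_not_EQ _ (h2.GE le_rfl)).1 h2 RVal.EQ_one

theorem RInt.GE {z : Qb} (h : RInt p z) : (vp p).GE z 0 := by
  obtain ⟨r, hr, rfl⟩ := h
  have h1 : algebraMap ℚ Qb r = ((r.num : ℤ) : Qb) * (((r.den : ℕ) : Qb))⁻¹ := by
    conv_lhs => rw [← Rat.num_div_den r]
    rw [map_div₀, div_eq_mul_inv]
    simp
  rw [h1]
  have h2 : (vp p).EQ (((r.den : ℕ) : Qb))⁻¹ (-0) := (EQ_natCast_of_coprime hr).inv
  simpa using (RVal.GE_intCast (v := vp p) r.num).mul (h2.GE (by simp))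

/-! ### (L0), (V0) -/

variable {V : Type} [AddCommGroup V] {act : GQ →* AddMonoid.End V} (C : Coord p V act)

theorem Coord.pair_sub (t : V) (ℓ : V →+ ZMod p) :
    C.ζ ^ (ℓ t).val - 1 = ∑ i, (C.x i t - C.x i 0) * C.c i ℓ := by
  have h0 := C.pair 0 ℓ
  rw [map_zero, ZMod.val_zero, pow_zero] at h0
  rw [← C.pair t ℓ, ← h0, ← Finset.sum_sub_distrib]
  exact Finset.sum_congr rfl fun i _ => by ring

/-- **(L0)** -/
theorem Coord.l0 (hpV : ∀ t : V, p • t = 0) {t : V}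
    (h : ∀ i, (vp p).GT (C.x i t - C.x i 0) (1 / ((p : ℝ) - 1))) : t = 0 := by
  by_contra ht
  obtain ⟨ℓ, -, hℓ⟩ := exists_form hpV ⊥ (g := t) (by simpa using ht)
  apply hℓ
  apply eq_zero_of_GT_zeta C.hζ
  rw [C.pair_sub]
  exact GT_sum _ _ _ _ fun i _ => by simpa using (h i).mul_GE (C.c_int i ℓ)

/-- the connected part `V0` -/
def Coord.Conn (g : V) : Prop := ∀ i, (vp p).GT (C.x i g - C.x i 0) 0

theorem Coord.conn_zero : C.Conn 0 := fun i => by rw [sub_self]; exact RVal.GT_zero 0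

/-- congruence of the coordinates of a sum -/
theorem Coord.add_congr {t t' u u' : V} (h : ∀ i, (vp p).GT (C.x i t - C.x i u) 0)
    (h' : ∀ i, (vp p).GT (C.x i t' - C.x i u') 0) (i : Fin C.n) :
    (vp p).GT (C.x i (t + t') - C.x i (u + u')) 0 := by
  rw [C.add, C.add, ← Finset.sum_sub_distrib]
  refine GT_sum _ _ _ _ fun j _ => ?_
  rw [← Finset.sum_sub_distrib]
  refine GT_sum _ _ _ _ fun k _ => ?_
  have e : C.δ i j k * (C.x j t * C.x k t') - C.δ i j k * (C.x j u * C.x k u') =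
      C.δ i j k * ((C.x j t - C.x j u) * C.x k t' + C.x j u * (C.x k t' - C.x k u')) := by ring
  rw [e]
  have h1 : (vp p).GT ((C.x j t - C.x j u) * C.x k t') 0 := by
    simpa using (h j).mul_GE (C.x_int k t')
  have h2 : (vp p).GT (C.x j u * (C.x k t' - C.x k u')) 0 := by
    simpa using (C.x_int j u).mul_GT (h' k)
  simpa using (C.δ_int i j k).GE.mul_GT (h1.add h2)

theorem Coord.neg_congr {t u : V} (h : ∀ i, (vp p).GT (C.x i t - C.x i u) 0) (i : Fin C.n) :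
    (vp p).GT (C.x i (-t) - C.x i (-u)) 0 := by
  rw [C.neg, C.neg, ← Finset.sum_sub_distrib]
  refine GT_sum _ _ _ _ fun j _ => ?_
  rw [← mul_sub]
  simpa using (C.ς_int i j).GE.mul_GT (h j)

theorem Coord.conn_add {g g' : V} (h : C.Conn g) (h' : C.Conn g') : C.Conn (g + g') := fun i => by
  have := C.add_congr h h' i
  rwa [add_zero] at this

theorem Coord.conn_neg {g : V} (h : C.Conn g) : C.Conn (-g) := fun i => by
  have := C.neg_congr h i
  rwa [neg_zero] at this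

/-- `V0` as a subgroup -/
def Coord.V0 : AddSubgroup V where
  carrier := {g | C.Conn g}
  add_mem' := fun h h' => C.conn_add h h'
  zero_mem' := C.conn_zero
  neg_mem' := fun h => C.conn_neg h

theorem Coord.mem_V0 {g : V} : g ∈ C.V0 ↔ ∀ i, (vp p).GT (C.x i g - C.x i 0) 0 := Iff.rfl

/-- the augmentation subgroup `I_I U` -/
def aug (p : ℕ) [Fact p.Prime] (act : GQ →* AddMonoid.End V) (U : AddSubgroup V) : AddSubgroup V :=
  AddSubgroup.closure {w | ∃ σ ∈ Ip p, ∃ u ∈ U, w = act σ u - u}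

theorem sub_mem_aug {U : AddSubgroup V} {σ : GQ} (hσ : σ ∈ Ip p) {u : V} (hu : u ∈ U) :
    act σ u - u ∈ aug p act U := AddSubgroup.subset_closure ⟨σ, hσ, u, hu, rfl⟩

theorem aug_mono {U U' : AddSubgroup V} (h : U ≤ U') : aug p act U ≤ aug p act U' :=
  AddSubgroup.closure_mono fun _ ⟨σ, hσ, u, hu, e⟩ => ⟨σ, hσ, u, h hu, e⟩

theorem aug_le {U : AddSubgroup V} (hU : ∀ σ ∈ Ip p, ∀ u ∈ U, act σ u ∈ U) : aug p act U ≤ U := by
  unfold aug
  rw [AddSubgroup.closure_le]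
  rintro _ ⟨σ, hσ, u, hu, rfl⟩
  exact U.sub_mem (hU σ hσ u hu) hu

/-- **(V0)** : `σ u - u ∈ V0` -/
theorem Coord.sub_mem_V0 {σ : GQ} (hσ : σ ∈ Ip p) (u : V) : act σ u - u ∈ C.V0 := by
  intro i
  have h1 : ∀ j, (vp p).GT (C.x j (act σ u) - C.x j u) 0 := fun j => by
    rw [← C.x_eq]
    exact GT_of_mem_Iq (pPrime p) hσ (C.x_int j u)
  have h2 : ∀ j, (vp p).GT (C.x j (-u) - C.x j (-u)) 0 := fun j => by
    rw [sub_self]; exact RVal.GT_zero 0
  have := C.add_congr h1 h2 i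
  rwa [add_neg_cancel, ← sub_eq_add_neg] at this

theorem Coord.aug_le_V0 (U : AddSubgroup V) : aug p act U ≤ C.V0 := by
  unfold aug
  rw [AddSubgroup.closure_le]
  rintro _ ⟨σ, hσ, u, -, rfl⟩
  exact C.sub_mem_V0 hσ u

/-- `aug U` is stable under `I` -/
theorem act_mem_aug {U : AddSubgroup V} (hU : ∀ σ ∈ Ip p, ∀ u ∈ U, act σ u ∈ U) {τ : GQ}
    (hτ : τ ∈ Ip p) {w : V} (hw : w ∈ aug p act U) : act τ w ∈ aug p act U := by
  have h1 : act τ w = (act τ w - w) + w := by abel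
  rw [h1]
  exact (aug p act U).add_mem (sub_mem_aug hτ (aug_le hU hw)) hw

end Fermat.Agent.S56.Flat
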