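import Fermat.Agent.S56.Flat.FL.CE

/-!
# S56 / FLAT / FL : refinements (LAT'), (LATb'), (TR') with explicit `Fx J`-integral coefficients
(helper24; asked by helper16 for KEY in the irreducible case).
-/

set_option autoImplicit false

noncomputable section

namespace Fermat.Agent.S56.Flat

open Fermat.Agent.S55 Fermat.Agent.S55.B Fermat.Agent.S05 ExtCitation

section abstract

variable {K Ω : Type*} [Field K] [Field Ω] [Algebra K Ω]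

/-- **LAT'** : `lat` with `b l = ∑ j, be j * a j l`, `a j l ∈ Fx J` integral -/
theorem lat' (v : RVal Ω) (J : Subgroup (Ω ≃ₐ[K] Ω)) {X : Type*} {m : ℕ}
    (s : (Ω ≃ₐ[K] Ω) → X → X) (y : Fin m → X → Ω)
    (hy : ∀ g ∈ J, ∀ j x, g (y j x) = y j (s g x)) (hs : ∀ g ∈ J, Function.Surjective (s g))
    (be : Fin m → Ω) (xi : (Ω ≃ₐ[K] Ω) → Ω) (f : X → Ω)
    (hf : ∀ x, f x = ∑ j, be j * y j x) (hxi : ∀ g ∈ J, ∀ x, g (f x) = xi g * f (s g x)) :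
    ∃ (T : Finset (Fin m)) (a : Fin m → Fin m → Ω), (∀ j l, a j l ∈ Fx J ∧ v.GE (a j l) 0) ∧
      (∀ x, f x = ∑ l ∈ T, (∑ j, be j * a j l) * y l x) ∧
      (∀ g ∈ J, ∀ l ∈ T, g (∑ j, be j * a j l) = xi g * ∑ j, be j * a j l) := by
  classical
  obtain ⟨T, hind, hgen⟩ := lat0 v J y (fun g hg => ⟨s g, hs g hg, hy g hg⟩)
  choose a ha hya using hgen
  have hfb : ∀ x, f x = ∑ l ∈ T, (∑ j, be j * a j l) * y l x := by
    intro x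
    rw [hf]
    have h1 : ∀ j, be j * y j x = ∑ l ∈ T, be j * a j l * y l x := by
      intro j
      rw [hya j]
      simp only [Finset.sum_apply, Pi.smul_apply, smul_eq_mul, Finset.mul_sum, mul_assoc]
    simp_rw [h1]
    rw [Finset.sum_comm]
    exact Finset.sum_congr rfl fun l _ => by rw [Finset.sum_mul]
  refine ⟨T, a, ha, hfb, ?_⟩
  intro g hg
  set b : Fin m → Ω := fun l => ∑ j, be j * a j l with hb
  have hrel : ∑ l ∈ T, (g (b l) - xi g * b l) • y l = 0 := by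
    funext x'
    obtain ⟨x, rfl⟩ := hs g hg x'
    have h1 := hxi g hg x
    rw [hfb x, hfb (s g x), map_sum, Finset.mul_sum] at h1
    simp only [Finset.sum_apply, Pi.smul_apply, smul_eq_mul, Pi.zero_apply, sub_mul,
      Finset.sum_sub_distrib]
    rw [sub_eq_zero]
    calc ∑ l ∈ T, g (b l) * y l (s g x) = ∑ l ∈ T, g (b l * y l x) :=
          Finset.sum_congr rfl fun l _ => by rw [map_mul, hy g hg]
      _ = ∑ l ∈ T, xi g * (b l * y l (s g x)) := h1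
      _ = _ := Finset.sum_congr rfl fun l _ => by rw [mul_assoc]
  intro l hl
  exact sub_eq_zero.1 (hind _ hrel l hl)

/-- **LATb'** -/
theorem latb' (v : RVal Ω) (J : Subgroup (Ω ≃ₐ[K] Ω)) {X : Type*} {m : ℕ}
    (s : (Ω ≃ₐ[K] Ω) → X → X) (y : Fin m → X → Ω)
    (hy : ∀ g ∈ J, ∀ j x, g (y j x) = y j (s g x)) (hs : ∀ g ∈ J, Function.Surjective (s g))
    (hyint : ∀ j x, v.GE (y j x) 0)
    (be : Fin m → Ω) (hbe : ∀ j, v.GE (be j) 0) (xi : (Ω ≃ₐ[K] Ω) → Ω) (f : X → Ω)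
    (hf : ∀ x, f x = ∑ j, be j * y j x) (hxi : ∀ g ∈ J, ∀ x, g (f x) = xi g * f (s g x))
    (x0 : X) (hx0 : v.EQ (f x0) 0) :
    ∃ a : Fin m → Ω, (∀ j, a j ∈ Fx J ∧ v.GE (a j) 0) ∧ v.EQ (∑ j, be j * a j) 0 ∧
      ∀ g ∈ J, g (∑ j, be j * a j) = xi g * ∑ j, be j * a j := by
  obtain ⟨T, a, ha, h1, h4⟩ := lat' v J s y hy hs be xi f hf hxi
  by_contra hcon
  push Not at hcon
  have hGE : ∀ l, v.GE (∑ j, be j * a j l) 0 := by
    intro l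
    refine GE_sum v _ _ _ fun j _ => ?_
    have := (hbe j).mul (ha j l).2
    rwa [add_zero] at this
  have hb : ∀ l ∈ T, v.GT (∑ j, be j * a j l) 0 := by
    intro l hl
    rw [GT_iff_not_EQ v (hGE l)]
    intro hEQ
    obtain ⟨g, hg, hne⟩ := hcon (fun j => a j l) (fun j => ha j l) hEQ
    exact hne (h4 g hg l hl)
  have : v.GT (f x0) 0 := by
    rw [h1]
    refine GT_sum v _ _ _ fun l hl => ?_
    have := (hb l hl).mul_GE (hyint l x0)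
    rwa [add_zero] at this
  exact (GT_iff_not_EQ v (this.GE le_rfl)).1 this hx0

end abstract

variable {p : ℕ} [Fact p.Prime] {V : Type} [AddCommGroup V] {act : GQ →* AddMonoid.End V}

/-- the action of `J` on a `J`-stable set of functionals, extended by the identity -/
def sXJ (p : ℕ) [Fact p.Prime] (act : GQ →* AddMonoid.End V) (J : Subgroup GQ)
    (Q : (V →+ ZMod p) → Prop)
    (hQ : ∀ σ ∈ J, ∀ ℓ, Q ℓ → Q (actD p act σ ℓ)) (σ : GQ) (ℓ : {ℓ // Q ℓ}) : {ℓ // Q ℓ} := by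
  classical
  exact if h : σ ∈ J then ⟨actD p act σ ℓ.1, hQ σ h ℓ.1 ℓ.2⟩ else ℓ

theorem sXJ_coe (J : Subgroup GQ) (Q : (V →+ ZMod p) → Prop)
    (hQ : ∀ σ ∈ J, ∀ ℓ, Q ℓ → Q (actD p act σ ℓ)) {σ : GQ} (hσ : σ ∈ J) (ℓ : {ℓ // Q ℓ}) :
    (sXJ p act J Q hQ σ ℓ).1 = actD p act σ ℓ.1 := by
  unfold sXJ
  rw [dif_pos hσ]

theorem sXJ_surjective (J : Subgroup GQ) (Q : (V →+ ZMod p) → Prop)
    (hQ : ∀ σ ∈ J, ∀ ℓ, Q ℓ → Q (actD p act σ ℓ)) {σ : GQ} (hσ : σ ∈ J) :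
    Function.Surjective (sXJ p act J Q hQ σ) := by
  intro ℓ
  refine ⟨⟨actD p act σ⁻¹ ℓ.1, hQ _ (J.inv_mem hσ) _ ℓ.2⟩, Subtype.ext ?_⟩
  rw [sXJ_coe J Q hQ hσ]
  exact actD_actD_inv σ ℓ.1

/-- **(TR)** for an arbitrary subgroup `J` of `G_ℚ` acting on `V1` through `ω`, with the explicit
shape `w = ∑ j, x j g * a j`, `a j ∈ Fx J` integral. -/
theorem Coord.trJ (C : Coord p V act) (J : Subgroup GQ) (V1 : AddSubgroup V)
    (hV1 : ∀ σ ∈ J, ∀ t ∈ V1, act σ t = ((cycloChar p σ : (ZMod p)ˣ) : ZMod p).val • t)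
    (g : V) (hg : ∀ σ ∈ J, act σ g - g ∈ V1) (ℓ : V →+ ZMod p) :
    ∃ a : Fin C.n → Qb, (∀ j, a j ∈ Fx J ∧ (vp p).GE (a j) 0) ∧
      (vp p).EQ (∑ j, C.x j g * a j) 0 ∧
      ∀ σ ∈ J, σ (∑ j, C.x j g * a j) = C.ζ ^ (ℓ (act σ g - g)).val * ∑ j, C.x j g * a j := by
  set Q : (V →+ ZMod p) → Prop := fun ℓ' => ∀ t ∈ V1, ℓ' t = ℓ t with hQdef
  have hom : ∀ σ ∈ J, ∀ (ℓ' : V →+ ZMod p), ∀ t ∈ V1,
      ((cycloChar p σ : (ZMod p)ˣ) : ZMod p) * ℓ' (act σ⁻¹ t) = ℓ' t := by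
    intro σ hσ ℓ' t ht
    rw [hV1 _ (J.inv_mem hσ) t ht, map_nsmul, nsmul_eq_mul, ZMod.natCast_zmod_val, map_inv,
      ← mul_assoc, Units.val_inv_eq_inv_val, mul_inv_cancel₀ (Units.ne_zero _), one_mul]
  have hQ : ∀ σ ∈ J, ∀ ℓ', Q ℓ' → Q (actD p act σ ℓ') := by
    intro σ hσ ℓ' hℓ' t ht
    rw [actD_apply, hom σ hσ ℓ' t ht, hℓ' t ht]
  refine latb' (vp p) J (sXJ p act J Q hQ) (fun j (ℓ' : {ℓ // Q ℓ}) => C.c j ℓ'.1)
    (fun σ hσ j ℓ' => by rw [sXJ_coe J Q hQ hσ]; exact C.c_eq σ j ℓ'.1)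
    (fun σ hσ => sXJ_surjective J Q hQ hσ) (fun j ℓ' => C.c_int j ℓ'.1)
    (fun j => C.x j g) (fun j => C.x_int j g) (fun σ => C.ζ ^ (ℓ (act σ g - g)).val)
    (fun ℓ' => C.ζ ^ (ℓ'.1 g).val) (fun ℓ' => (C.pair g ℓ'.1).symm) ?_ ⟨ℓ, fun _ _ => rfl⟩
    (EQ_zeta_pow_zero C.hζ _)
  intro σ hσ ℓ'
  rw [sXJ_coe J Q hQ hσ, gal_zeta_pow C.hζ, actD_apply, ← zeta_pow_add C.hζ]
  congr 2
  have ha := hg σ hσ
  have h1 : act σ⁻¹ (act σ g - g) = g - act σ⁻¹ g := by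
    rw [map_sub, act_inv_act]
  have h2 := hom σ hσ ℓ'.1 _ ha
  rw [h1, map_sub, mul_sub, ℓ'.2 _ ha] at h2
  rw [← h2]
  ring

/-- **(TR')** : `J` acts trivially on `V1` and `ω = 1` on `J`. -/
theorem Coord.tr' (C : Coord p V act) (J : Subgroup GQ) (V1 : AddSubgroup V)
    (hV1 : ∀ σ ∈ J, ∀ t ∈ V1, act σ t = t) (hcyc : ∀ σ ∈ J, cycloChar p σ = 1)
    (g : V) (hg : ∀ σ ∈ J, act σ g - g ∈ V1) (ℓ : V →+ ZMod p) :
    ∃ a : Fin C.n → Qb, (∀ j, a j ∈ Fx J ∧ (vp p).GE (a j) 0) ∧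
      (vp p).EQ (∑ j, C.x j g * a j) 0 ∧
      ∀ σ ∈ J, σ (∑ j, C.x j g * a j) = C.ζ ^ (ℓ (act σ g - g)).val * ∑ j, C.x j g * a j := by
  refine C.trJ J V1 (fun σ hσ t ht => ?_) g hg ℓ
  haveI : Fact (1 < p) := ⟨(Fact.out : p.Prime).one_lt⟩
  rw [hV1 σ hσ t ht, hcyc σ hσ, Units.val_one, ZMod.val_one, one_smul]

end Fermat.Agent.S56.Flat
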