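import Fermat.Agent.S56.Flat.FL.Basic

/-!
# S56 / FLAT / FL : (CE*) and (TR)      (helper24)   Briefing `S56-FLAT`, part FL.
-/

set_option autoImplicit false

noncomputable section

namespace Fermat.Agent.S56.Flat

open Fermat.Agent.S55 Fermat.Agent.S55.B Fermat.Agent.S05 ExtCitation

variable {p : ℕ} [Fact p.Prime] {V : Type} [AddCommGroup V] {act : GQ →* AddMonoid.End V}

theorem act_inv_act (σ : GQ) (t : V) : act σ⁻¹ (act σ t) = t := by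
  have h : (act σ⁻¹ * act σ) t = t := by rw [← map_mul, inv_mul_cancel, map_one]; rfl
  exact h

theorem act_act_inv (σ : GQ) (t : V) : act σ (act σ⁻¹ t) = t := by
  have h : (act σ * act σ⁻¹) t = t := by rw [← map_mul, mul_inv_cancel, map_one]; rfl
  exact h

theorem actD_apply (σ : GQ) (ℓ : V →+ ZMod p) (t : V) :
    actD p act σ ℓ t = ((cycloChar p σ : (ZMod p)ˣ) : ZMod p) * ℓ (act σ⁻¹ t) := rfl

theorem actD_actD_inv (σ : GQ) (ℓ : V →+ ZMod p) : actD p act σ (actD p act σ⁻¹ ℓ) = ℓ := by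
  have h : (actD p act σ * actD p act σ⁻¹) ℓ = ℓ := by
    rw [← map_mul, mul_inv_cancel, map_one]; rfl
  exact h

/-- the action of `I` on an `I`-stable set of functionals, extended by the identity -/
def sX (p : ℕ) [Fact p.Prime] (act : GQ →* AddMonoid.End V) (Q : (V →+ ZMod p) → Prop)
    (hQ : ∀ σ ∈ Ip p, ∀ ℓ, Q ℓ → Q (actD p act σ ℓ)) (σ : GQ) (ℓ : {ℓ // Q ℓ}) : {ℓ // Q ℓ} := by
  classical
  exact if h : σ ∈ Ip p then ⟨actD p act σ ℓ.1, hQ σ h ℓ.1 ℓ.2⟩ else ℓ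

theorem sX_coe (Q : (V →+ ZMod p) → Prop)
    (hQ : ∀ σ ∈ Ip p, ∀ ℓ, Q ℓ → Q (actD p act σ ℓ)) {σ : GQ} (hσ : σ ∈ Ip p) (ℓ : {ℓ // Q ℓ}) :
    (sX p act Q hQ σ ℓ).1 = actD p act σ ℓ.1 := by
  unfold sX
  rw [dif_pos hσ]

theorem sX_surjective (Q : (V →+ ZMod p) → Prop)
    (hQ : ∀ σ ∈ Ip p, ∀ ℓ, Q ℓ → Q (actD p act σ ℓ)) {σ : GQ} (hσ : σ ∈ Ip p) :
    Function.Surjective (sX p act Q hQ σ) := by
  intro ℓ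
  refine ⟨⟨actD p act σ⁻¹ ℓ.1, hQ _ ((Ip p).inv_mem hσ) _ ℓ.2⟩, Subtype.ext ?_⟩
  rw [sX_coe Q hQ hσ]
  exact actD_actD_inv σ ℓ.1

/-- **(CE*)** -/
theorem Coord.ce (C : Coord p V act) (hp2 : p ≠ 2) (hpV : ∀ t : V, p • t = 0) (U : AddSubgroup V)
    (hU : ∀ σ ∈ Ip p, ∀ u ∈ U, act σ u ∈ U) {g : V} (hgU : g ∈ U) (hg0 : g ∈ C.V0) :
    g ∈ aug p act U := by
  by_contra hg
  obtain ⟨ℓ0, hℓ0, hℓ0g⟩ := exists_form hpV (aug p act U) hg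
  set Q : (V →+ ZMod p) → Prop := fun ℓ => ∀ w ∈ aug p act U, ℓ w = 0 with hQdef
  have hQ : ∀ σ ∈ Ip p, ∀ ℓ, Q ℓ → Q (actD p act σ ℓ) := by
    intro σ hσ ℓ hℓ w hw
    rw [actD_apply, hℓ _ (act_mem_aug hU ((Ip p).inv_mem hσ) hw), mul_zero]
  have key := lata (p := p) (sX p act Q hQ) (fun j (ℓ : {ℓ // Q ℓ}) => C.c j ℓ.1)
    (fun σ hσ j ℓ => by rw [sX_coe Q hQ hσ]; exact C.c_eq σ j ℓ.1)
    (fun σ hσ => sX_surjective Q hQ hσ) (fun j ℓ => C.c_int j ℓ.1)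
    (fun j => C.x j g - C.x j 0) (fun j => hg0 j)
    (fun ℓ => C.ζ ^ (ℓ.1 g).val - 1) (fun ℓ => C.pair_sub g ℓ.1)
    (fun σ hσ ℓ => by
      rw [sX_coe Q hQ hσ, map_sub, map_one, gal_zeta_pow C.hζ, actD_apply]
      have h1 : ℓ.1 (act σ⁻¹ g) = ℓ.1 g := by
        have h2 : act σ⁻¹ g = (act σ⁻¹ g - g) + g := by abel
        rw [h2, map_add, ℓ.2 _ (sub_mem_aug ((Ip p).inv_mem hσ) hgU), zero_add]
      rw [h1])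
    ⟨ℓ0, hℓ0⟩
  exact hℓ0g (eq_zero_of_GT_zeta C.hζ (key.GT (one_div_lt_one hp2)))

/-- **(TR)** -/
theorem Coord.tr (C : Coord p V act) (V1 : AddSubgroup V)
    (hV1 : ∀ σ ∈ Ip p, ∀ t ∈ V1, act σ t = ((cycloChar p σ : (ZMod p)ˣ) : ZMod p).val • t)
    (g : V) (hg : ∀ σ ∈ Ip p, act σ g - g ∈ V1) (ℓ : V →+ ZMod p) :
    ∃ y : Qb, (vp p).EQ y 0 ∧ ∀ σ ∈ Ip p, σ y = C.ζ ^ (ℓ (act σ g - g)).val * y := by
  set Q : (V →+ ZMod p) → Prop := fun ℓ' => ∀ t ∈ V1, ℓ' t = ℓ t with hQdef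
  -- `ω(σ) ℓ'(σ⁻¹ t) = ℓ' t` on `V1`
  have hom : ∀ σ ∈ Ip p, ∀ (ℓ' : V →+ ZMod p), ∀ t ∈ V1,
      ((cycloChar p σ : (ZMod p)ˣ) : ZMod p) * ℓ' (act σ⁻¹ t) = ℓ' t := by
    intro σ hσ ℓ' t ht
    rw [hV1 _ ((Ip p).inv_mem hσ) t ht, map_nsmul, nsmul_eq_mul, ZMod.natCast_zmod_val, map_inv,
      ← mul_assoc, Units.val_inv_eq_inv_val, mul_inv_cancel₀ (Units.ne_zero _), one_mul]
  have hQ : ∀ σ ∈ Ip p, ∀ ℓ', Q ℓ' → Q (actD p act σ ℓ') := by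
    intro σ hσ ℓ' hℓ' t ht
    rw [actD_apply, hom σ hσ ℓ' t ht, hℓ' t ht]
  refine latb (vp p) (Ip p) (sX p act Q hQ) (fun j (ℓ' : {ℓ // Q ℓ}) => C.c j ℓ'.1)
    (fun σ hσ j ℓ' => by rw [sX_coe Q hQ hσ]; exact C.c_eq σ j ℓ'.1)
    (fun σ hσ => sX_surjective Q hQ hσ) (fun j ℓ' => C.c_int j ℓ'.1)
    (fun j => C.x j g) (fun j => C.x_int j g) (fun σ => C.ζ ^ (ℓ (act σ g - g)).val)
    (fun ℓ' => C.ζ ^ (ℓ'.1 g).val) (fun ℓ' => (C.pair g ℓ'.1).symm) ?_ ⟨ℓ, fun _ _ => rfl⟩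
    (EQ_zeta_pow_zero C.hζ _)
  intro σ hσ ℓ'
  rw [sX_coe Q hQ hσ, gal_zeta_pow C.hζ, actD_apply, ← zeta_pow_add C.hζ]
  congr 2
  -- `ω ℓ'(g) = ℓ(σ g - g) + ω ℓ'(σ⁻¹ g)`
  have ha := hg σ hσ
  have h1 : act σ⁻¹ (act σ g - g) = g - act σ⁻¹ g := by
    rw [map_sub, act_inv_act]
  have h2 := hom σ hσ ℓ'.1 _ ha
  rw [h1, map_sub, mul_sub, ℓ'.2 _ ha] at h2
  rw [← h2]
  ring

end Fermat.Agent.S56.Flat
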