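import Fermat.Agent.S56.Flat.FL.OT
import Fermat.Agent.S56.Flat.FH3

/-!
# S56 / FLAT / FL : the exports of FL in terms of `IsFlatMod`      (helper24)
`ce_flat` (= (V0) + (CE*)), `ot_flat` (= (OT')), `tr_flat` (= (TR), for every primitive `ζ`).
-/

set_option autoImplicit false

noncomputable section

namespace Fermat.Agent.S56.Flat

open Fermat.Agent.S55 Fermat.Agent.S55.B Fermat.Agent.S05 ExtCitation

variable {p : ℕ} [Fact p.Prime] {V : Type} [AddCommGroup V] [Finite V]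
  {act : GQ →* AddMonoid.End V}

theorem ce_flat (h : IsFlatMod p V act) (hp2 : p ≠ 2) (hpV : ∀ t : V, p • t = 0)
    (U : AddSubgroup V) (hU : ∀ σ ∈ Ip p, ∀ u ∈ U, act σ u ∈ U) :
    U ⊓ aug p act ⊤ ≤ aug p act U := by
  obtain ⟨C⟩ := coord_of_isFlatMod h
  rintro g ⟨hgU, hg⟩
  exact C.ce hp2 hpV U hU hgU (C.aug_le_V0 ⊤ hg)

theorem ot_flat (h : IsFlatMod p V act) (hp2 : p ≠ 2) (hpV : ∀ t : V, p • t = 0) {g : V}
    (hg : g ≠ 0) (kap : GQ → ZMod p) (hkap : ∀ σ ∈ Ip p, act σ g = (kap σ).val • g) :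
    (∀ σ ∈ Ip p, kap σ = 1) ∨
      (∀ σ ∈ Ip p, kap σ = ((cycloChar p σ : (ZMod p)ˣ) : ZMod p)) := by
  obtain ⟨C⟩ := coord_of_isFlatMod h
  exact C.ot hp2 hpV hg kap hkap

theorem tr_flat (h : IsFlatMod p V act) {ζ : Qb} (hζ : IsPrimitiveRoot ζ p) (g : V)
    (ℓ : V →+ ZMod p)
    (hg : ∀ s ∈ Ip p, ∀ t ∈ Ip p,
      act t (act s g - g) = ((cycloChar p t : (ZMod p)ˣ) : ZMod p).val • (act s g - g)) :
    ∃ y : Qb, (vp p).EQ y 0 ∧ ∀ s ∈ Ip p, s y = ζ ^ (ℓ (act s g - g)).val * y := by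
  obtain ⟨C⟩ := coord_of_isFlatMod h
  obtain ⟨i, hi, hiζ⟩ := C.hζ.eq_pow_of_pow_eq_one hζ.pow_eq_one
  set V1 : AddSubgroup V := AddSubgroup.closure {w | ∃ s ∈ Ip p, w = act s g - g} with hV1
  have hV1' : ∀ σ ∈ Ip p, ∀ t ∈ V1,
      act σ t = ((cycloChar p σ : (ZMod p)ˣ) : ZMod p).val • t := by
    intro σ hσ t ht
    induction ht using AddSubgroup.closure_induction with
    | mem x hx =>
      obtain ⟨s, hs, rfl⟩ := hx
      exact hg s hs σ hσ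
    | zero => rw [map_zero, smul_zero]
    | add x y _ _ hx hy => rw [map_add, hx, hy, smul_add]
    | neg x _ hx => rw [map_neg, hx, smul_neg]
  obtain ⟨y, hy0, hy⟩ := C.tr V1 hV1' g
    (fun σ hσ => AddSubgroup.subset_closure ⟨σ, hσ, rfl⟩)
    ((AddMonoidHom.mulLeft ((i : ℕ) : ZMod p)).comp ℓ)
  refine ⟨y, hy0, fun s hs => ?_⟩
  rw [hy s hs]
  congr 1
  show C.ζ ^ (((i : ℕ) : ZMod p) * ℓ (act s g - g)).val = _
  rw [zeta_pow_mul C.hζ, ZMod.val_natCast_of_lt hi, ← hiζ, ← pow_mul, ← pow_mul, mul_comm]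

end Fermat.Agent.S56.Flat
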