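import Fermat.Agent.S56.Flat.FL.OT1

/-!
# S56 / FLAT / FL : (OT')      (helper24)   Briefing `S56-FLAT`, part FL.
An `I`-stable `𝔽_p`-line in a flat module has character `1` or `ω`.
-/

set_option autoImplicit false
set_option linter.unusedSectionVars false

noncomputable section

namespace Fermat.Agent.S56.Flat

open Fermat.Agent.S55 Fermat.Agent.S55.B Fermat.Agent.S05 ExtCitation

variable {p : ℕ} [Fact p.Prime] {V : Type} [AddCommGroup V] {act : GQ →* AddMonoid.End V}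

theorem exists_form_one (hpV : ∀ t : V, p • t = 0) {g : V} (hg : g ≠ 0) :
    ∃ ℓ : V →+ ZMod p, ℓ g = 1 := by
  obtain ⟨ℓ, -, h⟩ := exists_form hpV ⊥ (g := g) (by simpa using hg)
  exact ⟨(AddMonoidHom.mulLeft (ℓ g)⁻¹).comp ℓ, by simp [inv_mul_cancel₀ h]⟩

/-- the character of a stable line as a homomorphism -/
theorem exists_hom (hpV : ∀ t : V, p • t = 0) {g : V} (hg : g ≠ 0) (kap : GQ → ZMod p)
    (hkap : ∀ σ ∈ Ip p, act σ g = (kap σ).val • g) :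
    ∃ φ : ↥(Ip p) →* (ZMod p)ˣ, ∀ σ : ↥(Ip p), ((φ σ : (ZMod p)ˣ) : ZMod p) = kap σ := by
  obtain ⟨ℓ, hℓ⟩ := exists_form_one hpV hg
  have h1 : ∀ σ ∈ Ip p, kap σ = ℓ (act σ g) := by
    intro σ hσ
    rw [hkap σ hσ, form_val_smul, hℓ, mul_one]
  let f : ↥(Ip p) →* ZMod p :=
    { toFun := fun σ => kap σ
      map_one' := by
        show kap ((1 : ↥(Ip p)) : GQ) = 1
        rw [h1 _ (1 : ↥(Ip p)).2, Subgroup.coe_one, map_one]
        exact hℓ
      map_mul' := by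
        intro σ τ
        show kap ((σ * τ : ↥(Ip p)) : GQ) = kap σ * kap τ
        rw [h1 _ (σ * τ).2, Subgroup.coe_mul, map_mul]
        show ℓ (act σ (act τ g)) = _
        rw [hkap τ τ.2, map_nsmul, form_val_smul, ← h1 σ σ.2, mul_comm] }
  exact ⟨f.toHomUnits, fun σ => rfl⟩

/-- **(OTa)** -/
theorem Coord.ota (C : Coord p V act) (hpV : ∀ t : V, p • t = 0) {g : V} (hg : g ≠ 0)
    (φ : ↥(Ip p) →* (ZMod p)ˣ)
    (hφ : ∀ σ : ↥(Ip p), act (σ : GQ) g = ((φ σ : (ZMod p)ˣ) : ZMod p).val • g)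
    (hne : ∃ τ, φ τ ≠ 1) (σ : ↥(Ip p)) (hσ : φ σ = 1) : omI p σ = 1 := by
  obtain ⟨τ, hτ⟩ := hne
  -- `g ∈ V0`
  have hgV0 : g ∈ C.V0 := by
    set a : ZMod p := ((φ τ : (ZMod p)ˣ) : ZMod p) with ha
    have ha1 : a - 1 ≠ 0 := by
      intro h
      apply hτ
      apply Units.ext
      rw [Units.val_one]
      exact sub_eq_zero.1 h
    set r : ZMod p := (a - 1)⁻¹ with hr
    have h1 : act (τ : GQ) g - g ∈ C.V0 := C.sub_mem_V0 τ.2 g
    have h2 : r.val • (act (τ : GQ) g - g) = g := by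
      rw [hφ τ, smul_sub, ← val_mul_smul (hpV g)]
      have e : r * a = r + 1 := by
        have : r * (a - 1) = 1 := inv_mul_cancel₀ ha1
        linear_combination this
      rw [e, val_add_smul (hpV g), val_one_smul]
      abel
    rw [← h2]
    exact C.V0.nsmul_mem h1 _
  -- a coordinate of small valuation
  have hex : ∃ i, ¬ (vp p).GT (C.x i g - C.x i 0) (1 / ((p : ℝ) - 1)) := by
    by_contra hcon
    push Not at hcon
    exact hg (C.l0 hpV hcon)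
  obtain ⟨i, hi⟩ := hex
  set z := C.x i g - C.x i 0 with hz
  have hz0 : z ≠ 0 := fun h => hi (Or.inl h)
  have hzpos : 0 < (vp p).w z := (hgV0 i).lt_w hz0
  have hzle : (vp p).w z ≤ 1 / ((p : ℝ) - 1) := by
    by_contra hlt
    exact hi (Or.inr (not_le.1 hlt))
  have hfix : ∀ σ : ↥(Ip p), φ σ = 1 → (σ : GQ) z = z := by
    intro σ hσ
    rw [hz, map_sub, C.x_eq, (C.zero i).fixed, hφ σ, hσ, Units.val_one, val_one_smul]
  have hw := (w_eq_of_orb φ hz0 hfix hzpos hzle).1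
  exact cyclo_eq_one_of_fixed ⟨hz0, hw⟩ σ.2 (hfix σ hσ)

/-- **(OTb)** -/
theorem Coord.otb (C : Coord p V act) (hpV : ∀ t : V, p • t = 0) {g : V} (hg : g ≠ 0)
    (φ : ↥(Ip p) →* (ZMod p)ˣ)
    (hφ : ∀ σ : ↥(Ip p), act (σ : GQ) g = ((φ σ : (ZMod p)ˣ) : ZMod p).val • g)
    (hne : ∃ τ, φ τ ≠ omI p τ) (σ : ↥(Ip p)) (hσ : φ σ = omI p σ) : omI p σ = 1 := by
  classical
  obtain ⟨τ, hτ⟩ := hne
  obtain ⟨ℓ, hℓ⟩ := exists_form_one hpV hg
  set ζ := C.ζ with hζdef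
  have hζ : IsPrimitiveRoot ζ p := C.hζ
  set y : Fin C.n → ZMod p → Qb := fun j a => C.x j (a.val • g) with hy
  -- the action on the line
  have hact : ∀ (ρ : ↥(Ip p)) (a : ZMod p),
      act (ρ : GQ) (a.val • g) = (((φ ρ : (ZMod p)ˣ) : ZMod p) * a).val • g := by
    intro ρ a
    rw [map_nsmul, hφ ρ, val_mul_smul (hpV g), smul_comm]
  have hpair : ∀ (ℓ' : V →+ ZMod p) (a : ZMod p),
      ∑ j, y j a * C.c j ℓ' = ζ ^ (a * ℓ' g).val := by
    intro ℓ' a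
    rw [← form_val_smul]
    exact C.pair _ _
  set κ : ZMod p := ((φ τ : (ZMod p)ˣ) : ZMod p) with hκ
  set w : ZMod p := ((omI p τ : (ZMod p)ˣ) : ZMod p) with hw
  have hκ0 : κ ≠ 0 := Units.ne_zero _
  set m : ZMod p := w * κ⁻¹ with hm
  have hn0 : m - 1 ≠ 0 := by
    intro h
    apply hτ
    apply Units.ext
    have h1 : w * κ⁻¹ = 1 := sub_eq_zero.1 h
    have h2 : w = κ := by
      have := congrArg (· * κ) h1
      simpa [mul_assoc, inv_mul_cancel₀ hκ0] using this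
    exact h2.symm
  set e : Fin C.n → Qb := fun j => (τ : GQ) (C.c j ℓ) - C.c j ℓ with he
  have heGT : ∀ j, (vp p).GT (e j) 0 := fun j => GT_of_mem_Iq (pPrime p) τ.2 (C.c_int j ℓ)
  -- (I1)
  have hI1 : ∀ a : ZMod p, ∑ j, e j * y j a = ζ ^ (m * a).val - ζ ^ a.val := by
    intro a'
    have h1 := hpair ℓ (κ⁻¹ * a')
    rw [hℓ, mul_one] at h1
    have h2 := congrArg (τ : GQ) h1
    rw [map_sum, gal_zeta_pow hζ] at h2
    have h3 : ∀ j, (τ : GQ) (y j (κ⁻¹ * a') * C.c j ℓ) = y j a' * (τ : GQ) (C.c j ℓ) := by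
      intro j
      rw [map_mul, hy]
      simp only
      rw [C.x_eq, hact τ, ← hκ, ← mul_assoc, mul_inv_cancel₀ hκ0, one_mul]
    simp_rw [h3] at h2
    have h4 := hpair ℓ a'
    rw [hℓ, mul_one] at h4
    have h5 : ((cycloChar p (τ : GQ) : (ZMod p)ˣ) : ZMod p) * (κ⁻¹ * a') = m * a' := by
      rw [hm, hw, mul_assoc]
      rfl
    rw [h5] at h2
    rw [← h2, ← h4, ← Finset.sum_sub_distrib]
    exact Finset.sum_congr rfl fun j _ => by rw [he]; ring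
  -- (I2)
  have hI2 : ∀ a : ZMod p, ∑ k, C.c k (-ℓ) * y k a = ζ ^ (-a).val := by
    intro a
    have h1 := hpair (-ℓ) a
    rw [AddMonoidHom.neg_apply, hℓ, mul_neg, mul_one] at h1
    rw [← h1]
    exact Finset.sum_congr rfl fun k _ => mul_comm _ _
  set f : ZMod p → Qb := fun a => ζ ^ ((m - 1) * a).val - 1 with hf
  set be : Fin C.n → Qb := fun i => ∑ j, ∑ k, e j * C.c k (-ℓ) * C.μ i j k with hbe
  have hbeGT : ∀ i, (vp p).GT (be i) 0 := by
    intro i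
    refine GT_sum _ _ _ _ fun j _ => GT_sum _ _ _ _ fun k _ => ?_
    have h1 : (vp p).GT (e j * C.c k (-ℓ)) 0 := by simpa using (heGT j).mul_GE (C.c_int k (-ℓ))
    simpa using h1.mul_GE (C.μ_int i j k).GE
  have hfbe : ∀ a, f a = ∑ i, be i * y i a := by
    intro a
    have h1 : f a = (ζ ^ (m * a).val - ζ ^ a.val) * ζ ^ (-a).val := by
      rw [hf, sub_mul, ← zeta_pow_add hζ, ← zeta_pow_add hζ, add_neg_cancel, ZMod.val_zero,
        pow_zero]
      simp only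
      rw [show (m - 1) * a = m * a + -a by ring]
    rw [h1, ← hI1, ← hI2, Finset.sum_mul_sum]
    have h2 : ∀ j k, e j * y j a * (C.c k (-ℓ) * y k a) =
        ∑ i, e j * C.c k (-ℓ) * C.μ i j k * y i a := by
      intro j k
      have := C.mul j k (a.val • g)
      calc e j * y j a * (C.c k (-ℓ) * y k a) = e j * C.c k (-ℓ) * (y j a * y k a) := by ring
        _ = e j * C.c k (-ℓ) * ∑ i, C.μ i j k * y i a := by rw [hy]; simp only; rw [this]
        _ = _ := by rw [Finset.mul_sum]; exact Finset.sum_congr rfl fun i _ => by ring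
    simp_rw [h2, hbe, Finset.sum_mul]
    calc ∑ j, ∑ k, ∑ i, e j * C.c k (-ℓ) * C.μ i j k * y i a
        = ∑ j, ∑ i, ∑ k, e j * C.c k (-ℓ) * C.μ i j k * y i a :=
          Finset.sum_congr rfl fun j _ => Finset.sum_comm
      _ = ∑ i, ∑ j, ∑ k, e j * C.c k (-ℓ) * C.μ i j k * y i a := Finset.sum_comm
  -- LAT
  set φ' : ↥(Ip p) →* (ZMod p)ˣ := omI p / φ with hφ'
  set J : Subgroup GQ := φ'.ker.map (Ip p).subtype with hJ
  have hJmem : ∀ ρ ∈ J, ∃ ρ' : ↥(Ip p), (ρ' : GQ) = ρ ∧ omI p ρ' = φ ρ' := by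
    rintro _ ⟨ρ', hρ', rfl⟩
    refine ⟨ρ', rfl, ?_⟩
    have : omI p ρ' / φ ρ' = 1 := hρ'
    exact div_eq_one.1 this
  obtain ⟨T, b, hb1, -, hb3, hb4⟩ := lat (vp p) J (fun ρ a => ℓ (act ρ g) * a) y
    (by
      intro ρ hρ j a
      obtain ⟨ρ', rfl, -⟩ := hJmem ρ hρ
      rw [hy]
      simp only
      rw [C.x_eq, hact ρ', hφ ρ', form_val_smul, hℓ, mul_one])
    (by
      intro ρ hρ a
      obtain ⟨ρ', rfl, -⟩ := hJmem ρ hρ
      refine ⟨((φ ρ' : (ZMod p)ˣ) : ZMod p)⁻¹ * a, ?_⟩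
      simp only
      rw [hφ ρ', form_val_smul, hℓ, mul_one, ← mul_assoc, mul_inv_cancel₀ (Units.ne_zero _),
        one_mul])
    be (fun _ => 1) f hfbe
    (by
      intro ρ hρ a
      obtain ⟨ρ', rfl, hρ'⟩ := hJmem ρ hρ
      rw [one_mul, hf]
      simp only
      rw [map_sub, map_one, gal_zeta_pow hζ, hφ ρ', form_val_smul, hℓ, mul_one, ← hρ']
      congr 3
      show ((cycloChar p (ρ' : GQ) : (ZMod p)ˣ) : ZMod p) * ((m - 1) * a) =
        (m - 1) * (((cycloChar p (ρ' : GQ) : (ZMod p)ˣ) : ZMod p) * a)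
      ring)
  have hf1 : (vp p).EQ (f 1) (1 / ((p : ℝ) - 1)) := by
    rw [hf]
    simp only
    rw [mul_one]
    exact EQ_zeta_pow hζ hn0
  have hex : ∃ l ∈ T, ¬ (vp p).GT (b l) (1 / ((p : ℝ) - 1)) := by
    by_contra hcon
    push Not at hcon
    have : (vp p).GT (f 1) (1 / ((p : ℝ) - 1)) := by
      rw [hb1]
      refine GT_sum _ _ _ _ fun l hl => ?_
      simpa using (hcon l hl).mul_GE (C.x_int l _)
    have h2 := this.lt_w hf1.1
    rw [hf1.2] at h2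
    exact lt_irrefl _ h2
  obtain ⟨l, hl, hbl⟩ := hex
  have hb0 : b l ≠ 0 := fun h => hbl (Or.inl h)
  have hbpos : 0 < (vp p).w (b l) := (hb3 0 hbeGT l hl).lt_w hb0
  have hble : (vp p).w (b l) ≤ 1 / ((p : ℝ) - 1) := by
    by_contra hlt
    exact hbl (Or.inr (not_le.1 hlt))
  have hfix : ∀ ρ : ↥(Ip p), φ' ρ = 1 → (ρ : GQ) (b l) = b l := by
    intro ρ hρ
    have := hb4 (ρ : GQ) ⟨ρ, hρ, rfl⟩ l hl
    rwa [one_mul] at this
  have hwb := (w_eq_of_orb φ' hb0 hfix hbpos hble).1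
  have hσ' : φ' σ = 1 := by
    show omI p σ / φ σ = 1
    rw [hσ, div_self']
  exact cyclo_eq_one_of_fixed ⟨hb0, hwb⟩ σ.2 (hfix σ hσ')

/-- **(OT')** -/
theorem Coord.ot (C : Coord p V act) (hp2 : p ≠ 2) (hpV : ∀ t : V, p • t = 0) {g : V} (hg : g ≠ 0)
    (kap : GQ → ZMod p) (hkap : ∀ σ ∈ Ip p, act σ g = (kap σ).val • g) :
    (∀ σ ∈ Ip p, kap σ = 1) ∨
      (∀ σ ∈ Ip p, kap σ = ((cycloChar p σ : (ZMod p)ˣ) : ZMod p)) := by
  obtain ⟨φ, hφk⟩ := exists_hom hpV hg kap hkap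
  have hφ : ∀ σ : ↥(Ip p), act (σ : GQ) g = ((φ σ : (ZMod p)ˣ) : ZMod p).val • g := fun σ => by
    rw [hφk]; exact hkap σ σ.2
  by_contra hcon
  rw [not_or] at hcon
  obtain ⟨h1, h2⟩ := hcon
  push Not at h1 h2
  obtain ⟨τ1, hτ1, hτ1'⟩ := h1
  obtain ⟨τ2, hτ2, hτ2'⟩ := h2
  have hA := C.ota hpV hg φ hφ ⟨⟨τ1, hτ1⟩, fun h => hτ1' (by
    rw [← hφk ⟨τ1, hτ1⟩, h, Units.val_one])⟩
  have hB := C.otb hpV hg φ hφ ⟨⟨τ2, hτ2⟩, fun h => hτ2' (by
    rw [← hφk ⟨τ2, hτ2⟩, h]; rfl)⟩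
  -- a non-square
  have hchar : ringChar (ZMod p) ≠ 2 := by rw [ZMod.ringChar_zmod_n]; exact hp2
  obtain ⟨γ, hγ⟩ := FiniteField.exists_nonsquare hchar
  have hγ0 : γ ≠ 0 := by
    rintro rfl
    exact hγ (IsSquare.zero)
  have hγh : γ ^ (p / 2) ≠ 1 := fun h => hγ ((ZMod.euler_criterion p hγ0).2 h)
  obtain ⟨σ, hσ, hσγ⟩ := omega_onto (Units.mk0 γ hγ0)
  set s : ↥(Ip p) := ⟨σ, hσ⟩ with hs
  have hom : omI p s = Units.mk0 γ hγ0 := hσγ
  set h := p / 2 with hh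
  have hsq : ∀ u : (ZMod p)ˣ, u ^ h ≠ 1 → u ^ h = -1 := by
    intro u hu
    have h2h : h * 2 = p - 1 := by
      have hodd : p % 2 = 1 := (Fact.out : p.Prime).eq_two_or_odd.resolve_left hp2
      omega
    have h3 : (u ^ h) * (u ^ h) = 1 := by
      rw [← pow_add, ← mul_two, h2h, ZMod.units_pow_card_sub_one_eq_one]
    have h4 : ((u ^ h : (ZMod p)ˣ) : ZMod p) * ((u ^ h : (ZMod p)ˣ) : ZMod p) = 1 := by
      rw [← Units.val_mul, h3, Units.val_one]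
    rcases mul_self_eq_one_iff.1 h4 with h5 | h5
    · exact absurd (Units.ext (by rw [h5, Units.val_one])) hu
    · exact Units.ext (by rw [h5, Units.val_neg, Units.val_one])
  have hγu : (omI p s) ^ h ≠ 1 := by
    rw [hom]
    intro h0
    apply hγh
    have := congrArg (fun u : (ZMod p)ˣ => (u : ZMod p)) h0
    simpa using this
  have hc1 : (φ s) ^ h ≠ 1 := by
    intro h0
    have := hA (s ^ h) (by rw [map_pow, h0])
    rw [map_pow] at this
    exact hγu this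
  have hc2 : (φ s) ^ h ≠ (omI p s) ^ h := by
    intro h0
    have := hB (s ^ h) (by rw [map_pow, map_pow, h0])
    rw [map_pow] at this
    exact hγu this
  exact hc2 (by rw [hsq _ hc1, hsq _ hγu])

end Fermat.Agent.S56.Flat
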