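import Fermat.Agent.S56.Flat.FL.CE

/-!
# S56 / FLAT / FL : tools for (OT')      (helper24)
`orb`, `w_eq_of_orb`, `cyclo_eq_one_of_fixed` (KER), `omega_onto`, arithmetic of `a.val • t`.
-/

set_option autoImplicit false
set_option linter.unusedSectionVars false

noncomputable section

namespace Fermat.Agent.S56.Flat

open Fermat.Agent.S55 Fermat.Agent.S55.B Fermat.Agent.S05 ExtCitation

variable {p : ℕ} [Fact p.Prime]

/-- the value group of the field cut out by a character `I → 𝔽_p^×` -/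
theorem orb (φ : ↥(Ip p) →* (ZMod p)ˣ) {b : Qb} (hb0 : b ≠ 0)
    (hfix : ∀ σ : ↥(Ip p), φ σ = 1 → (σ : GQ) b = b) :
    ∃ k : ℤ, (Nat.card φ.range : ℝ) * (vp p).w b = k := by
  set H : Subgroup GQ := φ.ker.map (Ip p).subtype with hH
  have hle : H ≤ Ip p := Subgroup.map_subtype_le _
  have hidx : H.relIndex (Ip p) = Nat.card φ.range := by
    rw [Subgroup.relIndex, hH, Subgroup.subgroupOf,
      Subgroup.comap_map_eq_self_of_injective (Subgroup.subtype_injective _), Subgroup.index_ker]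
  have hne : H.relIndex (Ip p) ≠ 0 := by
    rw [hidx]
    exact Nat.card_pos.ne'
  have hmem : b ∈ Fx H := by
    rw [mem_Fx]
    rintro _ ⟨σ, hσ, rfl⟩
    exact hfix σ hσ
  obtain ⟨k, hk⟩ := Fermat.Agent.S33.w_of_relIndex (pPrime p) hle hne hmem hb0
  exact ⟨k, by rw [← hidx]; exact hk⟩

theorem card_range_le (φ : ↥(Ip p) →* (ZMod p)ˣ) : Nat.card φ.range ≤ p - 1 := by
  have h1 : Nat.card φ.range ≤ Nat.card (ZMod p)ˣ := Subgroup.card_le_card_group _
  have h2 : Nat.card (ZMod p)ˣ = p - 1 := by rw [Nat.card_eq_fintype_card, ZMod.card_units]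
  rwa [h2] at h1

/-- `0 < w b ≤ 1/(p-1)` forces `w b = 1/(p-1)` and the character is onto -/
theorem w_eq_of_orb (φ : ↥(Ip p) →* (ZMod p)ˣ) {b : Qb} (hb0 : b ≠ 0)
    (hfix : ∀ σ : ↥(Ip p), φ σ = 1 → (σ : GQ) b = b) (hpos : 0 < (vp p).w b)
    (hle : (vp p).w b ≤ 1 / ((p : ℝ) - 1)) :
    (vp p).w b = 1 / ((p : ℝ) - 1) ∧ Nat.card φ.range = p - 1 := by
  obtain ⟨k, hk⟩ := orb φ hb0 hfix
  have hd := card_range_le φ
  have hd0 : 0 < Nat.card φ.range := Nat.card_pos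
  have hp1 : (1 : ℝ) < p := by exact_mod_cast (Fact.out : p.Prime).one_lt
  have hp1' : (0 : ℝ) < (p : ℝ) - 1 := by linarith
  have hdR : (Nat.card φ.range : ℝ) ≤ (p : ℝ) - 1 := by
    have : ((Nat.card φ.range : ℕ) : ℝ) ≤ ((p - 1 : ℕ) : ℝ) := by exact_mod_cast hd
    rwa [Nat.cast_sub (Fact.out : p.Prime).one_le, Nat.cast_one] at this
  have hd0R : (0 : ℝ) < (Nat.card φ.range : ℝ) := by exact_mod_cast hd0
  have hkpos : (0 : ℝ) < k := by rw [← hk]; positivity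
  have hk1 : (1 : ℤ) ≤ k := by
    have : (0 : ℤ) < k := by exact_mod_cast hkpos
    omega
  have hk1R : (1 : ℝ) ≤ k := by exact_mod_cast hk1
  -- `1 ≤ d w ≤ (p-1) w ≤ 1`
  have h1 : (Nat.card φ.range : ℝ) * (vp p).w b ≤ ((p : ℝ) - 1) * (vp p).w b :=
    mul_le_mul_of_nonneg_right hdR hpos.le
  have h2 : ((p : ℝ) - 1) * (vp p).w b ≤ 1 := by
    have := mul_le_mul_of_nonneg_left hle hp1'.le
    rwa [mul_one_div, div_self hp1'.ne'] at this
  have h3 : ((p : ℝ) - 1) * (vp p).w b = 1 := le_antisymm h2 (by linarith)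
  have h4 : (vp p).w b = 1 / ((p : ℝ) - 1) := by
    rw [eq_div_iff hp1'.ne']; linarith
  refine ⟨h4, ?_⟩
  have h5 : (Nat.card φ.range : ℝ) * (vp p).w b = ((p : ℝ) - 1) * (vp p).w b := by linarith
  have h6 : (Nat.card φ.range : ℝ) = (p : ℝ) - 1 := mul_right_cancel₀ hpos.ne' h5
  have h7 : ((Nat.card φ.range : ℕ) : ℝ) = ((p - 1 : ℕ) : ℝ) := by
    rw [Nat.cast_sub (Fact.out : p.Prime).one_le, Nat.cast_one]; exact h6
  exact_mod_cast h7

/-- **(KER)** an element of valuation `1/(p-1)` fixed by `σ ∈ I` forces `ω σ = 1` -/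
theorem cyclo_eq_one_of_fixed {b : Qb} (hb : (vp p).EQ b (1 / ((p : ℝ) - 1))) {σ : GQ}
    (hσ : σ ∈ Ip p) (hfix : σ b = b) : cycloChar p σ = 1 := by
  obtain ⟨ζ, hζ⟩ := Fermat.Agent.S33.cycAux_exists_prim (pPrime p)
  have hζ' : IsPrimitiveRoot ζ p := hζ
  have hπ : (vp p).EQ (ζ - 1) (1 / ((p : ℝ) - 1)) := Fermat.Agent.S33.w_pi (pPrime p) hζ
  have hσπ : (vp p).EQ (σ (ζ - 1)) (1 / ((p : ℝ) - 1)) :=
    (pres_Dq (pPrime p)).EQ (Iq_le_Dq (pPrime p) hσ) hπ
  have hu : (vp p).EQ (b / (ζ - 1)) 0 := by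
    have := hb.div hπ
    rwa [sub_self] at this
  have h1 : (vp p).GT (σ (b / (ζ - 1)) - b / (ζ - 1)) 0 :=
    GT_of_mem_Iq (pPrime p) hσ (hu.GE le_rfl)
  set c : ℕ := ((cycloChar p σ : (ZMod p)ˣ) : ZMod p).val with hc
  have hσζ : σ ζ = ζ ^ c := E.cycloChar_spec p σ hζ'.pow_eq_one
  have h2 : (vp p).GT (σ (ζ - 1) / (ζ - 1) - (c : Qb)) 0 :=
    Fermat.Agent.S33.GT_sigma_pi (pPrime p) hζ hσζ
  -- `1 - σπ/π = (σ u - u) * (σπ / b)`
  have e1 : 1 - σ (ζ - 1) / (ζ - 1) = (σ (b / (ζ - 1)) - b / (ζ - 1)) * (σ (ζ - 1) / b) := by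
    rw [map_div₀, hfix]
    have := hb.1
    have := hπ.1
    have := hσπ.1
    field_simp
  have h3 : (vp p).GT (1 - σ (ζ - 1) / (ζ - 1)) 0 := by
    rw [e1]
    have h4 : (vp p).EQ (σ (ζ - 1) / b) 0 := by
      have := hσπ.div hb
      rwa [sub_self] at this
    simpa using h1.mul_GE (h4.GE le_rfl)
  have h5 : (vp p).GT ((1 : Qb) - (c : Qb)) 0 := by
    have := h3.add h2
    have e2 : 1 - σ (ζ - 1) / (ζ - 1) + (σ (ζ - 1) / (ζ - 1) - (c : Qb)) = 1 - (c : Qb) := by ring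
    rwa [e2] at this
  have hcpos : 0 < c := by
    rw [hc, ZMod.val_pos]
    exact Units.ne_zero _
  have hclt : c < p := ZMod.val_lt _
  have hc1 : c = 1 := by
    by_contra hne
    have hcop : (c - 1).Coprime p := by
      rw [Nat.coprime_comm, (Fact.out : p.Prime).coprime_iff_not_dvd]
      intro hdvd
      have := Nat.le_of_dvd (by omega) hdvd
      omega
    have h6 := EQ_natCast_of_coprime hcop
    have e3 : (((c - 1 : ℕ) : ℕ) : Qb) = -((1 : Qb) - (c : Qb)) := by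
      rw [Nat.cast_sub hcpos]; simp
    rw [e3] at h6
    exact (GT_iff_not_EQ _ (h5.neg.GE le_rfl)).1 h5.neg h6
  apply Units.ext
  apply ZMod.val_injective p
  have : Fact (1 < p) := ⟨(Fact.out : p.Prime).one_lt⟩
  rw [Units.val_one, ZMod.val_one]
  exact hc1

/-- the cyclotomic character on inertia -/
def omI (p : ℕ) [Fact p.Prime] : ↥(Ip p) →* (ZMod p)ˣ := (cycloChar p).comp (Ip p).subtype

/-- `ω` is onto on inertia -/
theorem omega_onto (a : (ZMod p)ˣ) : ∃ σ ∈ Ip p, cycloChar p σ = a := by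
  obtain ⟨ζ, hζ⟩ := Fermat.Agent.S33.cycAux_exists_prim (pPrime p)
  have hζ' : IsPrimitiveRoot ζ p := hζ
  have hπ : (vp p).EQ (ζ - 1) (1 / ((p : ℝ) - 1)) := Fermat.Agent.S33.w_pi (pPrime p) hζ
  have h := w_eq_of_orb (omI p) hπ.1 (fun σ hσ => by
    have h1 : cycloChar p (σ : GQ) = 1 := hσ
    have h2 := E.cycloChar_spec p (σ : GQ) hζ'.pow_eq_one
    have : Fact (1 < p) := ⟨(Fact.out : p.Prime).one_lt⟩
    rw [h1, Units.val_one, ZMod.val_one, pow_one] at h2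
    rw [map_sub, map_one, h2]) (by rw [hπ.2]; exact one_div_pos') hπ.2.le
  have htop : (omI p).range = ⊤ := by
    apply Subgroup.eq_top_of_card_eq
    rw [h.2, Nat.card_eq_fintype_card, ZMod.card_units]
  have : a ∈ (omI p).range := by rw [htop]; trivial
  obtain ⟨σ, hσ⟩ := this
  exact ⟨σ.1, σ.2, hσ⟩

/-! ### `a.val • t` -/

section smul
variable {V : Type} [AddCommGroup V]

theorem mod_smul {t : V} (ht : p • t = 0) (n : ℕ) : (n % p) • t = n • t := by
  conv_rhs => rw [← Nat.mod_add_div n p]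
  rw [add_smul, mul_comm, mul_smul, ht, smul_zero, add_zero]

theorem val_add_smul {t : V} (ht : p • t = 0) (a b : ZMod p) :
    (a + b).val • t = a.val • t + b.val • t := by
  rw [ZMod.val_add, mod_smul ht, add_smul]

theorem val_mul_smul {t : V} (ht : p • t = 0) (a b : ZMod p) :
    (a * b).val • t = a.val • b.val • t := by
  rw [ZMod.val_mul, mod_smul ht, mul_smul]

theorem val_one_smul (t : V) : (1 : ZMod p).val • t = t := by
  have : Fact (1 < p) := ⟨(Fact.out : p.Prime).one_lt⟩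
  rw [ZMod.val_one, one_smul]

theorem form_val_smul (ℓ : V →+ ZMod p) (a : ZMod p) (t : V) : ℓ (a.val • t) = a * ℓ t := by
  rw [map_nsmul, nsmul_eq_mul, ZMod.natCast_zmod_val]

end smul

end Fermat.Agent.S56.Flat
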